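import Mathlib
import Fermat.Prelude.Def_AlgebraicCurve_DivisorClassGroup
import Fermat.Prelude.Def_AlgebraicCurve_IsCurveOver
import Fermat.Prelude.Def_AlgebraicCurve_Repartitions

/-!
# Project S27: standing hypotheses of the general (characteristic free) theory

`BaseHyp k F`  : principal divisors exist and have degree `0`; all residue fields are `k`.
`CurveHyp k F` : `BaseHyp` + Riemann's inequality along the multiples of one divisor.
They hold
* for `(K, F)` as in S27 (block K1), and
* for the function field of a valid one point table over any algebraically closed field (block M4).
-/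

set_option autoImplicit false

noncomputable section

namespace Fermat.Agent.S27

open AlgebraicCurve

universe u v

/-- `l(D)`. -/
def ell {k : Type u} {F : Type v} [Field k] [Field F] [Algebra k F] (D : Divisor k F) : ℕ :=
  Module.finrank k (riemannRochSpace D)

/-- principal divisors exist and have degree `0`, all residue fields are `k`. -/
structure BaseHyp (k : Type u) (F : Type v) [Field k] [Field F] [Algebra k F] : Prop where
  principal : HasPrincipalDivisors k F
  residue : ∀ v : Place k F, Function.Surjective (algebraMap k v.ResidueField)

/-- `BaseHyp` and Riemann's inequality along the multiples of one divisor of positive degree. -/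
structure CurveHyp (k : Type u) (F : Type v) [Field k] [Field F] [Algebra k F] : Prop
    extends BaseHyp k F where
  riemann : ∃ (B : Divisor k F) (γ : ℤ), 0 < Divisor.degree B ∧
    ∀ n : ℕ, (n : ℤ) * Divisor.degree B - (ell (n • B) : ℤ) ≤ γ

/-- The full Riemann-Roch package (goal of block RR). -/
structure RRPackage (k : Type u) (F : Type v) [Field k] [Field F] [Algebra k F] : Prop where
  finite_L : ∀ D : Divisor k F, Module.Finite k (riemannRochSpace D)
  finite_H1 : ∀ D : Divisor k F, Module.Finite k (H1 D)
  riemann : ∀ D : Divisor k F,
    (ell D : ℤ) - (Module.finrank k (H1 D) : ℤ) = Divisor.degree D + 1 - (genusFF k F : ℤ)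
  duality : ∃ W : Divisor k F, ∀ D : Divisor k F, Module.finrank k (H1 D) = ell (W - D)

end Fermat.Agent.S27
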