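import Mathlib

/-!
# Project S27, block AZ (abstract zeta argument): the contract

`AZData S` axiomatises what the geometry over `κ = 𝔽̄_p` provides:
`S` = set of places, `φ` = Frobenius permutation, `Prin` = principal divisors,
`l D = dim L(D)`, Riemann-Roch with canonical divisor `W`, a `φ`-fixed point `s0`, and the count of
`φ^m`-stable effective divisors in a `φ^m`-stable class.
Goal of the block: `AZMain`.
-/

set_option autoImplicit false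

noncomputable section

namespace Fermat.Agent.S27.AZ

/-- degree of a divisor on the set `S`. -/
def degHom (S : Type*) : (S →₀ ℤ) →+ ℤ := Finsupp.liftAddHom fun _ => AddMonoidHom.id ℤ

structure AZData (S : Type*) where
  φ : Equiv.Perm S
  Prin : AddSubgroup (S →₀ ℤ)
  l : (S →₀ ℤ) → ℕ
  q : ℕ
  g : ℕ
  W : S →₀ ℤ
  s0 : S
  one_lt_q : 1 < q
  deg_prin : ∀ D ∈ Prin, degHom S D = 0
  push_prin : ∀ D ∈ Prin, Finsupp.domCongr φ D ∈ Prin
  finite_fix : ∀ m : ℕ, 0 < m → {s : S | (φ ^ m) s = s}.Finite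
  exists_fix : ∀ s : S, ∃ m : ℕ, 0 < m ∧ (φ ^ m) s = s
  fix_s0 : φ s0 = s0
  l_congr : ∀ D D' : S →₀ ℤ, D - D' ∈ Prin → l D = l D'
  l_push : ∀ D : S →₀ ℤ, l (Finsupp.domCongr φ D) = l D
  l_pos_iff : ∀ D : S →₀ ℤ, 0 < l D ↔ ∃ E : S →₀ ℤ, 0 ≤ E ∧ E - D ∈ Prin
  rr : ∀ D : S →₀ ℤ, (l D : ℤ) - (l (W - D) : ℤ) = degHom S D + 1 - (g : ℤ)
  count : ∀ m : ℕ, 0 < m → ∀ D : S →₀ ℤ, Finsupp.domCongr (φ ^ m) D - D ∈ Prin →
    (q ^ m - 1) * Nat.card {E : S →₀ ℤ // 0 ≤ E ∧ Finsupp.domCongr (φ ^ m) E = E ∧ E - D ∈ Prin}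
      = q ^ (m * l D) - 1

/-- divisors of degree `0` whose `n`-th multiple is principal. -/
def AZData.torsionLift {S : Type*} (A : AZData S) (n : ℕ) : AddSubgroup (S →₀ ℤ) where
  carrier := {D | degHom S D = 0 ∧ n • D ∈ A.Prin}
  zero_mem' := ⟨map_zero _, by simp⟩
  add_mem' := by
    rintro D E ⟨hD, hD'⟩ ⟨hE, hE'⟩
    exact ⟨by rw [map_add, hD, hE, add_zero], by rw [smul_add]; exact A.Prin.add_mem hD' hE'⟩
  neg_mem' := by
    rintro D ⟨hD, hD'⟩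
    exact ⟨by rw [map_neg, hD, neg_zero], by rw [smul_neg]; exact A.Prin.neg_mem hD'⟩

/-- GOAL of block AZ: `#Pic⁰[ℓ^k] = ℓ^(2gk)` in flat form. -/
def AZMain.{u} : Prop :=
  ∀ (S : Type u) (A : AZData S) (ℓ : ℕ), ℓ.Prime → ¬ ℓ ∣ A.q → ∀ k : ℕ,
    A.Prin.relIndex (A.torsionLift (ℓ ^ k)) = ℓ ^ (2 * A.g * k)

end Fermat.Agent.S27.AZ
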