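import Mathlib

/-!
# Project S27: the hub definitions (pure linear algebra over a field `k`, first-order friendly)

A *one point model* of a curve: `R = ⊕_{j < m} k[x] y_j`, `y_0 = 1`, pole orders at the unique point
at infinity `ρ(x) = m`, `ρ(y_j) = b_j ≡ j mod m`, multiplication table
`y_i y_j = ∑_l a_{ijl}(x) y_l`, `a_{ijl} = ∑_t c i j l t x^t`.

* `Shape`  : the discrete data `(m, b)`; `Shape.genus = ∑ ⌊b_j / m⌋` (number of gaps).
* `Table`  : the structure constants `c`.
* `Valid`  : `c` defines a commutative associative algebra with weight function, nonsingular at all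
             points.
* `Rep d`  : an ideal of codimension `d` of `R`, coded as a cyclic `R`-module structure on `k^d`.
* `Count`  : "there are exactly `n^(2g)` ideal classes killed by `n`".
* `Goal`   : `∀ c, Valid c → Count c`, the first-order sentence which is transferred from `𝔽̄_p` to
             characteristic `0`.
-/

set_option autoImplicit false

noncomputable section

namespace Fermat.Agent.S27

universe u

/-- Discrete data of a one point model. -/
structure Shape where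
  m : ℕ
  b : Fin m → ℕ
  m_pos : 0 < m
  b_mod : ∀ j : Fin m, b j % m = j
  b_zero : ∀ j : Fin m, (j : ℕ) = 0 → b j = 0
  b_add : ∀ i j l : Fin m, ((i : ℕ) + j) % m = l → b l ≤ b i + b j

namespace Shape

variable (s : Shape)

def zero : Fin s.m := ⟨0, s.m_pos⟩

def add (i j : Fin s.m) : Fin s.m := ⟨((i : ℕ) + j) % s.m, Nat.mod_lt _ s.m_pos⟩

/-- number of gaps of the semigroup `{a m + b_j}`. -/
def genus : ℕ := ∑ j, s.b j / s.m

/-- (strict) bound for the `x`-degrees in the multiplication table. -/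
def T : ℕ := 2 * (∑ j, s.b j) + 1

/-- (strict) bound for the `x`-degrees of the elements of `R` quantified over in `Count s n`. -/
def N (n : ℕ) : ℕ := 2 * s.genus * (n + 4) + 1

end Shape

/-- structure constants: `y_i y_j = ∑_l (∑_t c i j l t x^t) y_l`. -/
abbrev Table (s : Shape) (k : Type u) : Type u := Fin s.m → Fin s.m → Fin s.m → Fin s.T → k

/-- coefficient families `p j t` of elements `∑ p j t x^t y_j` of `R`. -/
abbrev Elt (s : Shape) (N : ℕ) (k : Type u) : Type u := Fin s.m → Fin N → k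

section

variable {s : Shape} {k : Type u} [Field k]

namespace Table

/-- `a_{ijl}(ξ)` -/
def ev (c : Table s k) (ξ : k) (i j l : Fin s.m) : k := ∑ t : Fin s.T, c i j l t * ξ ^ (t : ℕ)

/-- `a_{ijl}'(ξ)` -/
def dev (c : Table s k) (ξ : k) (i j l : Fin s.m) : k :=
  ∑ t : Fin s.T, ((t : ℕ) : k) * c i j l t * ξ ^ ((t : ℕ) - 1)

/-- `a_{ijl}(X)` for a square matrix `X`. -/
def evM (c : Table s k) {d : ℕ} (X : Matrix (Fin d) (Fin d) k) (i j l : Fin s.m) :
    Matrix (Fin d) (Fin d) k := ∑ t : Fin s.T, c i j l t • X ^ (t : ℕ)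

/-- `a_{ijl}` as a polynomial. -/
def poly (c : Table s k) (i j l : Fin s.m) : Polynomial k :=
  ∑ t : Fin s.T, Polynomial.C (c i j l t) * Polynomial.X ^ (t : ℕ)

/-- `(ξ, η)` is a `k`-point of `Spec R`. -/
def IsPoint (c : Table s k) (ξ : k) (η : Fin s.m → k) : Prop :=
  η s.zero = 1 ∧ ∀ i j, η i * η j = ∑ l, c.ev ξ i j l * η l

/-- `(u, w)` is a tangent vector at the point `(ξ, η)`. -/
def IsTangent (c : Table s k) (ξ : k) (η : Fin s.m → k) (u : k) (w : Fin s.m → k) : Prop :=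
  w s.zero = 0 ∧ ∀ i j, w i * η j + η i * w j = ∑ l, (c.dev ξ i j l * u * η l + c.ev ξ i j l * w l)

end Table

/-- The table defines a nonsingular one point model of shape `s`. -/
structure Valid (s : Shape) {k : Type u} [Field k] (c : Table s k) : Prop where
  symm : ∀ i j, c i j = c j i
  unit : ∀ (j l : Fin s.m) (t : Fin s.T), c s.zero j l t = if l = j ∧ (t : ℕ) = 0 then 1 else 0
  wt : ∀ (i j l : Fin s.m) (t : Fin s.T), s.b i + s.b j < s.m * (t : ℕ) + s.b l → c i j l t = 0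
  lead : ∀ (i j : Fin s.m) (t : Fin s.T), s.m * (t : ℕ) + s.b (s.add i j) = s.b i + s.b j →
    c i j (s.add i j) t ≠ 0
  assoc : ∀ (ξ : k) (i j r u : Fin s.m),
    ∑ l, c.ev ξ i j l * c.ev ξ l r u = ∑ l, c.ev ξ j r l * c.ev ξ i l u
  smooth : ∀ (ξ : k) (η : Fin s.m → k), c.IsPoint ξ η → ∀ (u u' : k) (w w' : Fin s.m → k),
    c.IsTangent ξ η u w → c.IsTangent ξ η u' w' →
      ∃ α β : k, (α ≠ 0 ∨ β ≠ 0) ∧ α * u + β * u' = 0 ∧ ∀ j, α * w j + β * w' j = 0

/-- weight `≤ w`. -/
def WtLE (s : Shape) {k : Type u} [Field k] {N : ℕ} (w : ℕ) (p : Elt s N k) : Prop :=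
  ∀ (j : Fin s.m) (t : Fin N), w < s.m * (t : ℕ) + s.b j → p j t = 0

/-- A candidate cyclic `R`-module structure on `k^d` : action of `x`, of the `y_j`, cyclic vector.
It codes the ideal `{f | f • e = 0}` of codimension `d`. -/
structure Rep (s : Shape) (k : Type u) (d : ℕ) where
  X : Matrix (Fin d) (Fin d) k
  Y : Fin s.m → Matrix (Fin d) (Fin d) k
  e : Fin d → k

namespace Rep

variable {d d₁ d₂ d₃ N : ℕ}

/-- the action of `∑ p j t x^t y_j`. -/
def act (r : Rep s k d) (p : Elt s N k) : Matrix (Fin d) (Fin d) k :=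
  ∑ j, ∑ t : Fin N, p j t • (r.X ^ (t : ℕ) * r.Y j)

/-- `p` lies in the ideal coded by `r`. -/
def Mem (r : Rep s k d) (p : Elt s N k) : Prop := (r.act p).mulVec r.e = 0

/-- `r` is a cyclic module over the algebra with table `c`. -/
def IsRep (c : Table s k) (N : ℕ) (r : Rep s k d) : Prop :=
  r.Y s.zero = 1 ∧ (∀ j, r.X * r.Y j = r.Y j * r.X) ∧
    (∀ i j, r.Y i * r.Y j = ∑ l, c.evM r.X i j l * r.Y l) ∧
    ∀ u : Fin d → k, ∃ p : Elt s N k, (r.act p).mulVec r.e = u

/-- `I₁ I₂ ⊆ I₃` (tested on elements of bounded degree). -/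
def MulLE (N : ℕ) (r₁ : Rep s k d₁) (r₂ : Rep s k d₂) (r₃ : Rep s k d₃) : Prop :=
  ∀ p p' : Elt s N k, r₁.Mem p → r₂.Mem p' → (r₃.act p * r₃.act p').mulVec r₃.e = 0

/-- `I₁ ^ n ⊆ I₃` (tested on elements of bounded degree). -/
def PowLE (N n : ℕ) (r₁ : Rep s k d₁) (r₃ : Rep s k d₃) : Prop :=
  ∀ p : Fin n → Elt s N k, (∀ i, r₁.Mem (p i)) →
    ((List.ofFn fun i => r₃.act (p i)).prod).mulVec r₃.e = 0

/-- the ideal (of codimension `d`) is principal: it contains a nonzero element of weight `≤ d`. -/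
def Princ (N : ℕ) (r : Rep s k d) : Prop :=
  ∃ p : Elt s N k, p ≠ 0 ∧ WtLE s d p ∧ r.Mem p

/-- the class of the ideal is killed by `n`. -/
def Tors (c : Table s k) (N n : ℕ) (r : Rep s k d) : Prop :=
  ∃ r' : Rep s k (n * d), r'.IsRep c N ∧ PowLE N n r r' ∧ r'.Princ N

/-- the two ideals (of the same codimension) are in the same class. -/
def Equiv (c : Table s k) (N : ℕ) (r₁ r₂ : Rep s k d) : Prop :=
  ∃ (r' : Rep s k (2 * s.genus)) (t₁ t₂ : Rep s k (d + 2 * s.genus)),
    r'.IsRep c N ∧ t₁.IsRep c N ∧ t₂.IsRep c N ∧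
      MulLE N r₁ r' t₁ ∧ t₁.Princ N ∧ MulLE N r₂ r' t₂ ∧ t₂.Princ N

end Rep

/-- there are exactly `n ^ (2 g)` ideal classes killed by `n`. -/
def Count (s : Shape) (n : ℕ) {k : Type u} [Field k] (c : Table s k) : Prop :=
  ∃ R : Fin (n ^ (2 * s.genus)) → Rep s k (2 * s.genus),
    (∀ i, (R i).IsRep c (s.N n) ∧ (R i).Tors c (s.N n) n) ∧
    (∀ i j, i ≠ j → ¬ (R i).Equiv c (s.N n) (R j)) ∧
    ∀ r : Rep s k (2 * s.genus), r.IsRep c (s.N n) → r.Tors c (s.N n) n →
      ∃ i, r.Equiv c (s.N n) (R i)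

/-- The first-order sentence. -/
def Goal (s : Shape) (n : ℕ) (k : Type u) [Field k] : Prop :=
  ∀ c : Table s k, Valid s c → Count s n c

end

end Fermat.Agent.S27
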