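import Fermat.Agent.S27.Hyp
import Fermat.Agent.S27.Shape
import Fermat.Agent.S27.AZDefs

/-!
# Project S27: one point models and the contracts of all blocks
-/

set_option autoImplicit false

noncomputable section

namespace Fermat.Agent.S27

open AlgebraicCurve

universe u v

/-- A one point model of shape `s` of the function field `F / k`:
`R = {f | f regular outside inf} = ⊕_j k[x] y_j`. -/
structure OnePointModel (k : Type u) (F : Type v) [Field k] [Field F] [Algebra k F]
    (s : Shape) where
  x : F
  y : Fin s.m → F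
  inf : Place k F
  c : Table s k
  ord_x : inf.ord x = -(s.m : ℤ)
  ord_y : ∀ j, inf.ord (y j) = -(s.b j : ℤ)
  y_zero : y s.zero = 1
  regular_x : ∀ v : Place k F, v ≠ inf → 0 ≤ v.ord x
  regular_y : ∀ v : Place k F, v ≠ inf → ∀ j, 0 ≤ v.ord (y j)
  span : ∀ f : F, (∀ v : Place k F, v ≠ inf → 0 ≤ v.ord f) →
    ∃ p : Fin s.m → Polynomial k, f = ∑ j, Polynomial.aeval x (p j) * y j
  mul_table : ∀ i j, y i * y j = ∑ l, Polynomial.aeval x (c.poly i j l) * y l

/-! ## Contracts of the blocks -/

/-- Block RR. -/
def StmtRR : Prop :=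
  ∀ (k : Type u) (F : Type v) [Field k] [Field F] [Algebra k F], CurveHyp k F → RRPackage k F

/-- Block K1. -/
def StmtK1 : Prop :=
  ∀ (K : Type u) (F : Type v) [Field K] [Field F] [Algebra K F] [IsAlgClosed K] [CharZero K]
    [IsCurveOver K F] [Algebra.EssFiniteType K F], CurveHyp K F

/-- Block K2: existence of a one point model. -/
def StmtK2 : Prop :=
  ∀ (k : Type u) (F : Type v) [Field k] [Field F] [Algebra k F], CurveHyp k F →
    ∃ s : Shape, Nonempty (OnePointModel k F s)

/-- Block K2': the genus of a one point model. -/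
def StmtGenus : Prop :=
  ∀ (k : Type u) (F : Type v) [Field k] [Field F] [Algebra k F] (s : Shape), CurveHyp k F →
    OnePointModel k F s → s.genus = genusFF k F

/-- Block K3: the table of a model is valid. -/
def StmtK3 : Prop :=
  ∀ (k : Type u) (F : Type v) [Field k] [Field F] [Algebra k F] (s : Shape), CurveHyp k F →
    ∀ M : OnePointModel k F s, Valid s M.c

/-- Block E: the elementary count is the count of torsion classes. -/
def StmtE : Prop :=
  ∀ (k : Type u) (F : Type v) [Field k] [Field F] [Algebra k F] (s : Shape), CurveHyp k F →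
    ∀ (M : OnePointModel k F s) (n : ℕ), 0 < n →
      (Count s n M.c ↔ Nat.card (Pic0.torsion k F n) = n ^ (2 * s.genus))

/-- Block M4: every valid table comes from a model. -/
def StmtM4 : Prop :=
  ∀ (k : Type u) [Field k] [IsAlgClosed k] (s : Shape) (c : Table s k), Valid s c →
    ∃ (F : Type u) (_ : Field F) (_ : Algebra k F), CurveHyp k F ∧
      ∃ M : OnePointModel k F s, M.c = c

/-- Block FROB: over `𝔽̄_p` a model gives the data of the abstract zeta argument. -/
def StmtFrob : Prop :=
  ∀ (p : ℕ) (κ : Type u) (F : Type v) [Field κ] [Field F] [Algebra κ F] [IsAlgClosed κ]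
    [CharP κ p] (s : Shape), p.Prime → (∀ a : κ, ∃ n : ℕ, 0 < n ∧ a ^ (p ^ n) = a) →
    CurveHyp κ F → OnePointModel κ F s →
      ∃ A : AZ.AZData (Place κ F), A.Prin = Divisor.principal ∧ A.g = genusFF κ F ∧
        ∃ r : ℕ, A.q = p ^ r

/-- Block FO: the Lefschetz principle for the sentence `Goal s n`. -/
def StmtFO : Prop :=
  ∀ (s : Shape) (n : ℕ) (K : Type u) [Field K] [IsAlgClosed K] [CharZero K],
    {p : Nat.Primes | ∃ (κ : Type u) (_ : Field κ), IsAlgClosed κ ∧ CharP κ p ∧ Goal s n κ}.Infinite →
      Goal s n K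

end Fermat.Agent.S27
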