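import Fermat.Agent.S27.Assembly
import Fermat.Agent.S27.RR.Main
import Fermat.Agent.S27.K.Main
import Fermat.Agent.S27.API.Main
import Fermat.Agent.S27.E.Main
import Fermat.Agent.S27.FO.Main
import Fermat.Agent.S27.M4.Main
import Fermat.Agent.S27.Frob.Main
import Fermat.Agent.S27.AZ.Main
import Fermat.Agent.Lib.RR.Bridge27b

/-!
# S27 for the class `IsFF` of `Lib/RR`, in characteristic `0` and over `𝔽̄_p`

* `card_torsion_charP` : `#Pic⁰(F)[ℓ^e] = ℓ^(2 g e)` for a function field over `𝔽̄_p`, `ℓ ≠ p`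
  (by-product of the proof of S27: blocks K2, Frob, AZ; no model theory);
* `card_torsion_charZero` : the statement of S27 under the hypothesis `[IsFF K F]`;
* `exists_pow_eq_self_residueField` : the residue field of a valuation subring of `ℚ̄` of residue
  characteristic `q` is algebraic over `𝔽_q`.
-/

set_option autoImplicit false

namespace Fermat.Agent.S27

open AlgebraicCurve

universe u v

/-- `κ` an algebraic closure of `𝔽_p` (every element is fixed by a power of Frobenius). -/
theorem card_torsion_of_curveHyp_charP (p : ℕ) (hp : p.Prime) (κ : Type u) (F : Type v) [Field κ]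
    [Field F] [Algebra κ F] [IsAlgClosed κ] [CharP κ p]
    (hκ : ∀ a : κ, ∃ n : ℕ, 0 < n ∧ a ^ (p ^ n) = a) (hF : CurveHyp κ F)
    (ℓ : ℕ) (hℓ : ℓ.Prime) (hne : ℓ ≠ p) (e : ℕ) :
    Nat.card (Pic0.torsion κ F (ℓ ^ e)) = ℓ ^ (2 * genusFF κ F * e) := by
  obtain ⟨s, ⟨M⟩⟩ := Fermat.Agent.S27.K.stmtK2 RR.stmtRR κ F hF
  obtain ⟨A, hAP, hAg, r, hAq⟩ := Frob.stmtFrob RR.stmtRR p κ F s hp hκ hF M
  rw [card_torsion_eq_relIndex hF.toBaseHyp A hAP,
    AZ.azMain _ A ℓ hℓ (by
      rw [hAq]
      intro hd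
      exact hne ((Nat.prime_dvd_prime_iff_eq hℓ hp).mp (hℓ.dvd_of_dvd_pow hd))) e, hAg]

/-- The same for the class `IsFF` of `Lib/RR`. -/
theorem card_torsion_charP (p : ℕ) (hp : p.Prime) (κ : Type u) (F : Type v) [Field κ]
    [Field F] [Algebra κ F] [IsAlgClosed κ] [CharP κ p] [Fermat.Agent.Lib.RR.IsFF κ F]
    (hκ : ∀ a : κ, ∃ n : ℕ, 0 < n ∧ a ^ (p ^ n) = a)
    (ℓ : ℕ) (hℓ : ℓ.Prime) (hne : ℓ ≠ p) (e : ℕ) :
    Nat.card (Pic0.torsion κ F (ℓ ^ e)) = ℓ ^ (2 * genusFF κ F * e) :=
  card_torsion_of_curveHyp_charP p hp κ F hκ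
    (Fermat.Agent.Lib.RR.curveHyp_of_isFF Fermat.Agent.Lib.RR.residue_surjective) ℓ hℓ hne e

/-- S27 under the hypothesis `CurveHyp`. -/
theorem card_torsion_of_curveHyp_charZero (K : Type u) (F : Type v) [Field K] [Field F]
    [Algebra K F] [IsAlgClosed K] [CharZero K] (hF : CurveHyp K F)
    (ℓ : ℕ) (hℓ : ℓ.Prime) (e : ℕ) :
    Nat.card (Pic0.torsion K F (ℓ ^ e)) = ℓ ^ (2 * genusFF K F * e) := by
  obtain ⟨s, ⟨M⟩⟩ := Fermat.Agent.S27.K.stmtK2 RR.stmtRR K F hF
  have hgoal : Goal s (ℓ ^ e) K := by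
    apply FO.stmtFO s (ℓ ^ e) K
    have hsub : {p : Nat.Primes | (p : ℕ) ≠ ℓ} ⊆
        {p : Nat.Primes | ∃ (κ : Type u) (_ : Field κ), IsAlgClosed κ ∧ CharP κ p ∧
          Goal s (ℓ ^ e) κ} := by
      intro p hp
      obtain ⟨κ, _, h1, h2, h3⟩ := exists_kappa.{u} (p : ℕ) p.2
      exact ⟨κ, _, h1, h2, goal_kappa (API.stmtGenus RR.stmtRR)
        (E.stmtE_of_API (API.stmtAPI RR.stmtRR)) M4.stmtM4 (Frob.stmtFrob RR.stmtRR) AZ.azMain
        p p.2 κ h3 ℓ hℓ (fun h => hp h.symm) s e⟩
    refine Set.Infinite.mono hsub ?_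
    have : {p : Nat.Primes | (p : ℕ) ≠ ℓ} = ({⟨ℓ, hℓ⟩} : Set Nat.Primes)ᶜ := by
      ext p
      constructor
      · intro hp hmem
        exact hp (congrArg Subtype.val (Set.mem_singleton_iff.mp hmem))
      · intro hp hmem
        exact hp (Set.mem_singleton_iff.mpr (Subtype.ext hmem))
    rw [this]
    exact (Set.finite_singleton _).infinite_compl
  have hcount := hgoal M.c (E.stmtK3_of_API (API.stmtAPI RR.stmtRR) K F s hF M)
  rw [E.stmtE_of_API (API.stmtAPI RR.stmtRR) K F s hF M (ℓ ^ e) (pow_pos hℓ.pos e)] at hcount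
  rw [hcount, API.stmtGenus RR.stmtRR K F s hF M, ← pow_mul]
  congr 1
  ring

/-- S27 for the class `IsFF` of `Lib/RR`. -/
theorem card_torsion_charZero (K : Type u) (F : Type v) [Field K] [Field F]
    [Algebra K F] [IsAlgClosed K] [CharZero K] [Fermat.Agent.Lib.RR.IsFF K F]
    (ℓ : ℕ) (hℓ : ℓ.Prime) (e : ℕ) :
    Nat.card (Pic0.torsion K F (ℓ ^ e)) = ℓ ^ (2 * genusFF K F * e) :=
  card_torsion_of_curveHyp_charZero K F
    (Fermat.Agent.Lib.RR.curveHyp_of_isFF Fermat.Agent.Lib.RR.residue_surjective) ℓ hℓ e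

/-- an element algebraic over `𝔽_p` is fixed by a power of Frobenius. -/
theorem exists_pow_eq_self_of_isAlgebraic (p : ℕ) [Fact p.Prime] {κ : Type*} [Field κ]
    [Algebra (ZMod p) κ] {a : κ} (ha : IsAlgebraic (ZMod p) a) :
    ∃ n : ℕ, 0 < n ∧ a ^ (p ^ n) = a := by
  have ha' : IsIntegral (ZMod p) a := ha.isIntegral
  have : FiniteDimensional (ZMod p) (IntermediateField.adjoin (ZMod p) {a}) :=
    IntermediateField.adjoin.finiteDimensional ha'
  have : Finite (IntermediateField.adjoin (ZMod p) {a}) := Module.finite_of_finite (ZMod p)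
  let _ : Fintype (IntermediateField.adjoin (ZMod p) {a}) := Fintype.ofFinite _
  have : CharP (IntermediateField.adjoin (ZMod p) {a}) p :=
    charP_of_injective_algebraMap
      (algebraMap (ZMod p) (IntermediateField.adjoin (ZMod p) {a})).injective p
  obtain ⟨n, -, hn⟩ := FiniteField.card (IntermediateField.adjoin (ZMod p) {a}) p
  refine ⟨n, n.pos, ?_⟩
  have h := FiniteField.pow_card
    (⟨a, IntermediateField.mem_adjoin_simple_self _ a⟩ : IntermediateField.adjoin (ZMod p) {a})
  rw [hn] at h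
  exact congrArg Subtype.val h

/-- The residue field of a valuation subring of an algebraic extension of `ℚ`, of residue
characteristic `q`, is algebraic over `𝔽_q`. -/
theorem exists_pow_eq_self_residueField {L : Type*} [Field L] [Algebra ℚ L]
    [Algebra.IsAlgebraic ℚ L] (A : ValuationSubring L) (q : ℕ) (hq : q.Prime)
    [CharP (IsLocalRing.ResidueField A) q] (a : IsLocalRing.ResidueField A) :
    ∃ n : ℕ, 0 < n ∧ a ^ (q ^ n) = a := by
  haveI : Fact q.Prime := ⟨hq⟩
  letI : Algebra (ZMod q) (IsLocalRing.ResidueField A) := ZMod.algebra _ q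
  apply exists_pow_eq_self_of_isAlgebraic q
  obtain ⟨α, rfl⟩ := IsLocalRing.residue_surjective a
  -- a primitive integral polynomial killing `α`
  have hα : IsAlgebraic ℤ (α : L) :=
    (IsFractionRing.isAlgebraic_iff ℤ ℚ L).mpr (Algebra.IsAlgebraic.isAlgebraic (α : L))
  obtain ⟨P, hP0, hP⟩ := hα
  have hprim : P.primPart.IsPrimitive := P.isPrimitive_primPart
  have hroot : Polynomial.aeval (α : L) P.primPart = 0 := by
    have h1 := P.eq_C_content_mul_primPart
    rw [h1, map_mul, Polynomial.aeval_C] at hP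
    rcases mul_eq_zero.mp hP with h | h
    · exfalso
      have : P.content = 0 := by
        have hinj : Function.Injective (algebraMap ℤ L) := by
          have : CharZero L := charZero_of_injective_algebraMap (algebraMap ℚ L).injective
          exact (algebraMap ℤ L).injective_int
        exact hinj (by rw [h, map_zero])
      exact hP0 (Polynomial.content_eq_zero_iff.mp this)
    · exact h
  set Q := P.primPart with hQ
  refine ⟨Q.map (Int.castRingHom (ZMod q)), ?_, ?_⟩
  · -- nonzero mod `q`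
    intro h0
    have hdvd : (Polynomial.C (q : ℤ)) ∣ Q := by
      rw [Polynomial.C_dvd_iff_dvd_coeff]
      intro i
      have := congrArg (fun R => Polynomial.coeff R i) h0
      simp only [Polynomial.coeff_map, Polynomial.coeff_zero] at this
      exact (ZMod.intCast_zmod_eq_zero_iff_dvd _ q).mp this
    have := hprim (q : ℤ) hdvd
    rw [Int.isUnit_iff] at this
    have h2 := hq.two_le
    omega
  · -- root
    have hA : Polynomial.aeval α Q = 0 := by
      apply Subtype.val_injective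
      have := Polynomial.aeval_algebraMap_apply L α Q
      rw [ZeroMemClass.coe_zero, ← hroot]
      exact this.symm
    have h1 := congrArg (IsLocalRing.residue A) hA
    rw [map_zero] at h1
    rw [Polynomial.aeval_def, Polynomial.eval₂_map]
    rw [Polynomial.aeval_def, Polynomial.hom_eval₂] at h1
    have e : (algebraMap (ZMod q) (IsLocalRing.ResidueField A)).comp (Int.castRingHom (ZMod q))
        = (IsLocalRing.residue A).comp (algebraMap ℤ A) := RingHom.ext_int _ _
    rw [e]
    exact h1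

end Fermat.Agent.S27
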