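import Fermat.Agent.S27.Model

/-!
# Project S27: assembly of the blocks
-/

set_option autoImplicit false

noncomputable section

namespace Fermat.Agent.S27

open AlgebraicCurve

universe u v

/-- an algebraic closure of `𝔽_p` in any universe. -/
theorem exists_kappa (p : ℕ) (hp : p.Prime) :
    ∃ (κ : Type u) (_ : Field κ), IsAlgClosed κ ∧ CharP κ p ∧
      ∀ a : κ, ∃ n : ℕ, 0 < n ∧ a ^ (p ^ n) = a := by
  have : Fact p.Prime := ⟨hp⟩
  have key : ∀ a : AlgebraicClosure (ZMod p), ∃ n : ℕ, 0 < n ∧ a ^ (p ^ n) = a := by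
    intro a
    have ha : IsIntegral (ZMod p) a := (Algebra.IsAlgebraic.isAlgebraic a).isIntegral
    have : FiniteDimensional (ZMod p) (IntermediateField.adjoin (ZMod p) {a}) :=
      IntermediateField.adjoin.finiteDimensional ha
    have : Finite (IntermediateField.adjoin (ZMod p) {a}) := Module.finite_of_finite (ZMod p)
    let _ : Fintype (IntermediateField.adjoin (ZMod p) {a}) := Fintype.ofFinite _
    obtain ⟨n, -, hn⟩ := FiniteField.card (IntermediateField.adjoin (ZMod p) {a}) p
    refine ⟨n, n.pos, ?_⟩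
    have h := FiniteField.pow_card
      (⟨a, IntermediateField.mem_adjoin_simple_self _ a⟩ : IntermediateField.adjoin (ZMod p) {a})
    rw [hn] at h
    exact congrArg Subtype.val h
  refine ⟨ULift.{u} (AlgebraicClosure (ZMod p)), inferInstance, ?_, ?_, ?_⟩
  · refine IsAlgClosed.of_exists_root _ fun P _ hP => ?_
    let e : ULift.{u} (AlgebraicClosure (ZMod p)) ≃+* AlgebraicClosure (ZMod p) := ULift.ringEquiv
    have hdeg : (P.map e.toRingHom).degree ≠ 0 := by
      rw [Polynomial.degree_map]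
      exact Polynomial.degree_ne_of_natDegree_ne hP.natDegree_pos.ne'
    obtain ⟨x, hx⟩ := IsAlgClosed.exists_root _ hdeg
    refine ⟨e.symm x, e.injective ?_⟩
    have h2 := Polynomial.eval₂_at_apply (p := P)
      e.toRingHom (e.symm x)
    rw [Polynomial.IsRoot.def, Polynomial.eval_map] at hx
    simp only [RingEquiv.toRingHom_eq_coe, RingEquiv.coe_toRingHom, RingEquiv.apply_symm_apply] at h2 hx
    rw [map_zero, ← h2]
    exact hx
  · exact charP_of_injective_ringHom
      (f := ((ULift.ringEquiv (R := AlgebraicClosure (ZMod p))).symm :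
        AlgebraicClosure (ZMod p) →+* ULift.{u} (AlgebraicClosure (ZMod p))))
      (RingEquiv.injective _) p
  · intro a
    obtain ⟨n, hn, h⟩ := key a.down
    exact ⟨n, hn, ULift.ext _ _ h⟩

section glue

variable {k : Type u} {F : Type v} [Field k] [Field F] [Algebra k F]

theorem BaseHyp.deg_eq_one (h : BaseHyp k F) (v : Place k F) : v.deg = 1 := by
  have hbij : Function.Bijective (algebraMap k v.ResidueField) :=
    ⟨(algebraMap k v.ResidueField).injective, h.residue v⟩
  show Module.finrank k v.ResidueField = 1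
  rw [← Module.finrank_self k]
  exact ((AlgEquiv.ofBijective (Algebra.ofId k v.ResidueField) hbij).toLinearEquiv.finrank_eq).symm

theorem degHom_eq_degree (h : BaseHyp k F) (D : Divisor k F) :
    AZ.degHom (Place k F) D = Divisor.degree D := by
  induction D using Finsupp.induction_linear with
  | zero => simp
  | add D E hD hE => rw [map_add, map_add, hD, hE]
  | single v n => simp [AZ.degHom, Divisor.degree_single, h.deg_eq_one v]

theorem card_torsion_eq_relIndex (h : BaseHyp k F) (A : AZ.AZData (Place k F))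
    (hA : A.Prin = Divisor.principal) (n : ℕ) :
    Nat.card (Pic0.torsion k F n) = A.Prin.relIndex (A.torsionLift n) := by
  have hmem : ∀ D : A.torsionLift n, (D : Divisor k F) ∈ Divisor.degZero (K := k) (F := F) := by
    intro D
    rw [Divisor.mem_degZero, ← degHom_eq_degree h]
    exact D.2.1
  let f : A.torsionLift n →+ Pic0 k F :=
    (QuotientAddGroup.mk' _).comp
      ((A.torsionLift n).subtype.codRestrict (Divisor.degZero (K := k) (F := F)) hmem)
  have hker : f.ker = A.Prin.addSubgroupOf (A.torsionLift n) := by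
    ext D
    rw [AddMonoidHom.mem_ker, AddSubgroup.mem_addSubgroupOf, hA]
    show (QuotientAddGroup.mk _ : Pic0 k F) = 0 ↔ _
    rw [QuotientAddGroup.eq_zero_iff, AddSubgroup.mem_addSubgroupOf]
    rfl
  have hrange : f.range = Pic0.torsion k F n := by
    ext x
    constructor
    · rintro ⟨D, rfl⟩
      rw [Pic0.mem_torsion]
      show (n : ℤ) • (QuotientAddGroup.mk _ : Pic0 k F) = 0
      rw [← QuotientAddGroup.mk_zsmul, QuotientAddGroup.eq_zero_iff, AddSubgroup.mem_addSubgroupOf]
      have := D.2.2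
      rw [hA] at this
      have h2 : (((n : ℤ) • ((A.torsionLift n).subtype.codRestrict
          (Divisor.degZero (K := k) (F := F)) hmem) D : Divisor.degZero (K := k) (F := F)) :
          Divisor k F) = n • (D : Divisor k F) := by
        simp
      rw [h2]
      exact this
    · intro hx
      obtain ⟨D, rfl⟩ := Pic0.mk_surjective x
      rw [Pic0.mem_torsion] at hx
      have hx' : (n : ℤ) • (QuotientAddGroup.mk D : Pic0 k F) = 0 := hx
      rw [← QuotientAddGroup.mk_zsmul, QuotientAddGroup.eq_zero_iff,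
        AddSubgroup.mem_addSubgroupOf] at hx'
      refine ⟨⟨D.1, ?_, ?_⟩, ?_⟩
      · rw [degHom_eq_degree h]; exact D.2
      · rw [hA]; simpa using hx'
      · rfl
  rw [AddSubgroup.relIndex, ← hker, AddSubgroup.index_ker, hrange]

end glue

/-- the sentence holds over `𝔽̄_p`, `p ≠ ℓ`. -/
theorem goal_kappa (hGenus : StmtGenus.{u, u}) (hE : StmtE.{u, u}) (hM4 : StmtM4.{u})
    (hFrob : StmtFrob.{u, u}) (hAZ : AZ.AZMain.{u})
    (p : ℕ) (hp : p.Prime) (κ : Type u) [Field κ] [IsAlgClosed κ] [CharP κ p]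
    (hκ : ∀ a : κ, ∃ n : ℕ, 0 < n ∧ a ^ (p ^ n) = a)
    (ℓ : ℕ) (hℓ : ℓ.Prime) (hne : ℓ ≠ p) (s : Shape) (e : ℕ) : Goal s (ℓ ^ e) κ := by
  intro c hc
  obtain ⟨F, _, _, hF, M, rfl⟩ := hM4 κ s c hc
  obtain ⟨A, hAP, hAg, r, hAq⟩ := hFrob p κ F s hp hκ hF M
  rw [hE κ F s hF M (ℓ ^ e) (pow_pos hℓ.pos e),
    card_torsion_eq_relIndex hF.toBaseHyp A hAP,
    hAZ _ A ℓ hℓ (by
      rw [hAq]
      intro hd
      exact hne ((Nat.prime_dvd_prime_iff_eq hℓ hp).mp (hℓ.dvd_of_dvd_pow hd))) e,
    hAg, hGenus κ F s hF M, ← pow_mul]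
  congr 1
  ring

/-- S27 from the contracts. -/
theorem main (hK1 : StmtK1.{u, v}) (hK2 : StmtK2.{u, v}) (hGenus : StmtGenus.{u, v})
    (hK3 : StmtK3.{u, v}) (hE : StmtE.{u, v}) (hFO : StmtFO.{u})
    (hGenus' : StmtGenus.{u, u}) (hE' : StmtE.{u, u}) (hM4 : StmtM4.{u})
    (hFrob : StmtFrob.{u, u}) (hAZ : AZ.AZMain.{u})
    (K : Type u) (F : Type v) [Field K] [Field F] [Algebra K F] [IsAlgClosed K] [CharZero K]
    [IsCurveOver K F] [Algebra.EssFiniteType K F]
    (ℓ : ℕ) [Fact ℓ.Prime] (e : ℕ) :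
    Nat.card (Pic0.torsion K F (ℓ ^ e)) = ℓ ^ (2 * genusFF K F * e) := by
  have hℓ : ℓ.Prime := Fact.out
  have hF : CurveHyp K F := hK1 K F
  obtain ⟨s, ⟨M⟩⟩ := hK2 K F hF
  have hgoal : Goal s (ℓ ^ e) K := by
    apply hFO s (ℓ ^ e) K
    have hsub : {p : Nat.Primes | (p : ℕ) ≠ ℓ} ⊆
        {p : Nat.Primes | ∃ (κ : Type u) (_ : Field κ), IsAlgClosed κ ∧ CharP κ p ∧
          Goal s (ℓ ^ e) κ} := by
      intro p hp
      obtain ⟨κ, _, h1, h2, h3⟩ := exists_kappa.{u} (p : ℕ) p.2
      exact ⟨κ, _, h1, h2, goal_kappa hGenus' hE' hM4 hFrob hAZ p p.2 κ h3 ℓ hℓ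
        (fun h => hp h.symm) s e⟩
    refine Set.Infinite.mono hsub ?_
    have : {p : Nat.Primes | (p : ℕ) ≠ ℓ} = ({⟨ℓ, hℓ⟩} : Set Nat.Primes)ᶜ := by
      ext p
      constructor
      · intro hp hmem
        exact hp (congrArg Subtype.val (Set.mem_singleton_iff.mp hmem))
      · intro hp hmem
        exact hp (Set.mem_singleton_iff.mpr (Subtype.ext hmem))
    rw [this]
    exact (Set.finite_singleton _).infinite_compl
  have hcount := hgoal M.c (hK3 K F s hF M)
  rw [hE K F s hF M (ℓ ^ e) (pow_pos hℓ.pos e)] at hcount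
  rw [hcount, hGenus K F s hF M, ← pow_mul]
  congr 1
  ring

end Fermat.Agent.S27
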